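import Mathlib

/-!
# Row LT, tower T7, leaf T7.L2.1.C0 `SetupC` (helper416): number theory, Mathlib only

OFF-MAIN.  No `sorry`, nothing assumed.

* `exists_prime_dvd_eval416` (Schur): a non-constant integer polynomial has a root modulo some
  prime not dividing a given `M`;
* `exists_prime_moved416`: for a ring automorphism `e` of the ring of integers of a number field
  which moves `theta`, and `M` not zero, there are a prime number `p` not dividing `M` and a prime
  ideal `w` over `p` which is NOT stable under `e`.  (Values of the characteristic polynomial of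
  `theta`: `p` divides the norm of `m - theta`, Cauchy gives a prime `w` containing `p` and
  `m - theta`; if `e w = w` then `e theta - theta` lies in `w`, so `p` divides its norm.)
-/

set_option autoImplicit false
set_option linter.style.haveILetI false

open Polynomial NumberField

namespace Fermat.Agent.LT.T7.H416

/-- **Schur**: a non-constant integer polynomial has a root modulo some prime outside any given
finite set. -/
theorem exists_prime_dvd_eval416 (g : ℤ[X]) (hg : 0 < g.natDegree) (M : ℕ) (hM : M ≠ 0) :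
    ∃ (p : ℕ) (m : ℤ), p.Prime ∧ ¬ p ∣ M ∧ (p : ℤ) ∣ g.eval m := by
  classical
  set c : ℤ := g.eval 0 with hc
  by_cases hc0 : c = 0
  · obtain ⟨p, hpM, hp⟩ := Nat.exists_infinite_primes (M + 1)
    refine ⟨p, p, hp, ?_, ?_⟩
    · intro h
      have := Nat.le_of_dvd (Nat.pos_of_ne_zero hM) h
      omega
    · have h := Polynomial.sub_dvd_eval_sub (p : ℤ) 0 g
      rw [← hc, hc0, sub_zero, sub_zero] at h
      exact h
  · -- the polynomial `t ↦ g (c M t)`
    have hcM : (c * M : ℤ) ≠ 0 := mul_ne_zero hc0 (by exact_mod_cast hM)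
    set h : ℤ[X] := g.comp (C (c * M) * X) with hh
    have hdeg : h.natDegree = g.natDegree := by
      rw [hh, Polynomial.natDegree_comp, Polynomial.natDegree_C_mul_X _ hcM, mul_one]
    -- the bad values
    have hfin : ({t : ℤ | h.eval t = c ∨ h.eval t = -c ∨ h.eval t = 0} : Set ℤ).Finite := by
      have h1 : ∀ a : ℤ, ({t : ℤ | h.eval t = a} : Set ℤ).Finite := by
        intro a
        have hne : h - C a ≠ 0 := by
          intro h0
          have : (h - C a).natDegree = 0 := by rw [h0]; simp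
          rw [Polynomial.natDegree_sub_C, hdeg] at this
          omega
        refine ((h - C a).roots.toFinset.finite_toSet).subset ?_
        intro t ht
        simp only [Set.mem_ofPred_eq] at ht
        simp only [Finset.mem_coe, Multiset.mem_toFinset, Polynomial.mem_roots hne,
          Polynomial.IsRoot.def, Polynomial.eval_sub, Polynomial.eval_C, ht, sub_self]
      exact ((h1 c).union ((h1 (-c)).union (h1 0))).subset (fun t ht => ht)
    obtain ⟨t, ht⟩ := (Set.infinite_univ (α := ℤ)).exists_notMem_finite hfin |>.imp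
      (fun t ht => ht.2)
    simp only [Set.mem_ofPred_eq, not_or] at ht
    obtain ⟨h1, h2, h3⟩ := ht
    -- `g (c M t) = c (1 + M t s)`
    have hval : h.eval t = g.eval (c * M * t) := by
      rw [hh, Polynomial.eval_comp, Polynomial.eval_mul, Polynomial.eval_C, Polynomial.eval_X]
    obtain ⟨s, hs⟩ := Polynomial.sub_dvd_eval_sub (c * M * t) 0 g
    rw [sub_zero, ← hc] at hs
    have hv : h.eval t = c * (1 + M * t * s) := by rw [hval]; linear_combination hs
    set v : ℤ := 1 + M * t * s with hvdef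
    have hv1 : v.natAbs ≠ 1 := by
      intro h'
      rcases Int.natAbs_eq v with e | e
      · rw [h'] at e
        apply h1
        rw [hv, e]; simp
      · rw [h'] at e
        apply h2
        rw [hv, e]; simp
    obtain ⟨p, hp, hpv⟩ := Nat.exists_prime_and_dvd hv1
    have hpv' : (p : ℤ) ∣ v := Int.natCast_dvd.mpr hpv
    refine ⟨p, c * M * t, hp, ?_, ?_⟩
    · intro hpM
      have h4 : (p : ℤ) ∣ (M : ℤ) := Int.natCast_dvd_natCast.mpr hpM
      have h5 : (p : ℤ) ∣ 1 := by
        have h6 : (p : ℤ) ∣ v - M * (t * s) := dvd_sub hpv' (Dvd.dvd.mul_right h4 _)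
        have e : v - M * (t * s) = 1 := by rw [hvdef]; ring
        rwa [e] at h6
      have := Int.eq_one_of_dvd_one (by positivity) h5
      have : p = 1 := by exact_mod_cast this
      exact hp.one_lt.ne' this
    · rw [← hval, hv]
      exact Dvd.dvd.mul_left hpv' _

/-- **A prime moved by an automorphism.**  For a ring automorphism `e ≠ 1` of the ring of
integers of a number field and `M ≠ 0` there are a prime number `p ∤ M` and a prime ideal `w`
over `p` with `e w ≠ w`. -/
theorem exists_prime_moved416 (L : Type) [Field L] [NumberField L] (e : 𝓞 L ≃+* 𝓞 L)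
    (θ : 𝓞 L) (hθ : e θ ≠ θ) (M : ℕ) (hM : M ≠ 0) :
    ∃ (p : ℕ) (w : Ideal (𝓞 L)), p.Prime ∧ ¬ p ∣ M ∧ w.IsPrime ∧ (p : 𝓞 L) ∈ w ∧
      Ideal.map (e : 𝓞 L →+* 𝓞 L) w ≠ w := by
  classical
  -- the norm of `e θ - θ`
  set N₀ : ℕ := Ideal.absNorm (Ideal.span {e θ - θ}) with hN₀
  have hN₀ne : N₀ ≠ 0 := by
    rw [hN₀, Ne, Ideal.absNorm_eq_zero_iff, Ideal.span_singleton_eq_bot]
    exact sub_ne_zero.mpr hθ
  -- the characteristic polynomial of the multiplication by `θ`
  set f : 𝓞 L →ₗ[ℤ] 𝓞 L := Algebra.lmul ℤ (𝓞 L) θ with hf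
  have hdeg : 0 < f.charpoly.natDegree := by
    rw [LinearMap.charpoly_natDegree]
    exact Module.finrank_pos
  obtain ⟨p, m, hp, hpM, hpm⟩ :=
    exists_prime_dvd_eval416 f.charpoly hdeg (M * N₀) (mul_ne_zero hM hN₀ne)
  have hpM' : ¬ p ∣ M := fun h => hpM (Dvd.dvd.mul_right h _)
  have hpN : ¬ p ∣ N₀ := fun h => hpM (Dvd.dvd.mul_left h _)
  haveI : Fact p.Prime := ⟨hp⟩
  -- the value is the norm of `m - θ`
  have hnorm : f.charpoly.eval m = Algebra.norm ℤ ((m : 𝓞 L) - θ) := by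
    rw [LinearMap.eval_charpoly, Algebra.norm_apply, hf]
    congr 1
    have e1 : ((m : 𝓞 L)) = algebraMap ℤ (𝓞 L) m := (eq_intCast (algebraMap ℤ (𝓞 L)) m).symm
    rw [map_sub (Algebra.lmul ℤ (𝓞 L)), e1, AlgHom.commutes]
  set J : Ideal (𝓞 L) := Ideal.span {(m : 𝓞 L) - θ} with hJ
  have hJne : J ≠ ⊥ := by
    rw [hJ, Ne, Ideal.span_singleton_eq_bot, sub_eq_zero]
    intro h
    apply hθ
    rw [← h, map_intCast]
  have hcard : p ∣ Nat.card (𝓞 L ⧸ J) := by
    have h1 : Ideal.absNorm J = (Algebra.norm ℤ ((m : 𝓞 L) - θ)).natAbs :=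
      Ideal.absNorm_span_singleton _
    have h2 : Ideal.absNorm J = Nat.card (𝓞 L ⧸ J) := rfl
    rw [← h2, h1, ← hnorm]
    exact Int.natCast_dvd.mp hpm
  haveI : Finite (𝓞 L ⧸ J) := by
    rw [← Ideal.absNorm_ne_zero_iff, Ne, Ideal.absNorm_eq_zero_iff]
    exact hJne
  obtain ⟨x, hx⟩ := exists_prime_addOrderOf_dvd_card' (G := 𝓞 L ⧸ J) p hcard
  have hx0 : x ≠ 0 := by
    intro h
    rw [h, addOrderOf_zero] at hx
    exact hp.one_lt.ne' hx.symm
  have hpx : (p : 𝓞 L ⧸ J) * x = 0 := by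
    have h := addOrderOf_nsmul_eq_zero x
    rw [hx, nsmul_eq_mul] at h
    exact h
  -- the ideal `J + (p)` is proper
  have hI : J ⊔ Ideal.span {(p : 𝓞 L)} ≠ ⊤ := by
    intro htop
    have h1 : (1 : 𝓞 L) ∈ J ⊔ Ideal.span {(p : 𝓞 L)} := by rw [htop]; trivial
    obtain ⟨j, hj, q, hq, hjq⟩ := Submodule.mem_sup.mp h1
    obtain ⟨b, rfl⟩ := Ideal.mem_span_singleton'.mp hq
    apply hx0
    have h2 : (Ideal.Quotient.mk J) (j + b * p) = 1 := by rw [hjq, map_one]
    have h3 : (Ideal.Quotient.mk J) j = 0 := Ideal.Quotient.eq_zero_iff_mem.mpr hj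
    rw [map_add, h3, zero_add, map_mul, map_natCast] at h2
    calc x = 1 * x := (one_mul x).symm
      _ = (Ideal.Quotient.mk J) b * ((p : 𝓞 L ⧸ J) * x) := by rw [← h2]; ring
      _ = 0 := by rw [hpx, mul_zero]
  obtain ⟨w, hw, hle⟩ := Ideal.exists_le_maximal _ hI
  have hpw : (p : 𝓞 L) ∈ w := hle (Ideal.mem_sup_right (Ideal.mem_span_singleton_self _))
  have hmw : (m : 𝓞 L) - θ ∈ w := hle (Ideal.mem_sup_left (Ideal.mem_span_singleton_self _))
  refine ⟨p, w, hp, hpM', hw.isPrime, hpw, ?_⟩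
  intro hew
  have h1 : e ((m : 𝓞 L) - θ) ∈ w := by
    rw [← hew]
    exact Ideal.mem_map_of_mem (e : 𝓞 L →+* 𝓞 L) hmw
  rw [map_sub, map_intCast] at h1
  have h2 : e θ - θ ∈ w := by
    have := w.sub_mem hmw h1
    have e1 : (m : 𝓞 L) - θ - ((m : 𝓞 L) - e θ) = e θ - θ := by ring
    rwa [e1] at this
  have h3 : (N₀ : 𝓞 L) ∈ w := by
    have h4 : Ideal.span {e θ - θ} ≤ w := (Ideal.span_singleton_le_iff_mem _).mpr h2
    exact h4 (Ideal.absNorm_mem _)
  have hcop : Nat.Coprime p N₀ := (Nat.Prime.coprime_iff_not_dvd hp).mpr hpN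
  have h5 : (1 : 𝓞 L) ∈ w := by
    have h6 := Nat.Coprime.gcd_eq_one hcop
    have h7 : ((Nat.gcd p N₀ : ℤ) : 𝓞 L) = (p : 𝓞 L) * ((Nat.gcdA p N₀ : ℤ) : 𝓞 L)
        + (N₀ : 𝓞 L) * ((Nat.gcdB p N₀ : ℤ) : 𝓞 L) := by
      rw [Nat.gcd_eq_gcd_ab]
      push_cast
      ring
    rw [h6] at h7
    have h8 : (1 : 𝓞 L) = (p : 𝓞 L) * ((Nat.gcdA p N₀ : ℤ) : 𝓞 L)
        + (N₀ : 𝓞 L) * ((Nat.gcdB p N₀ : ℤ) : 𝓞 L) := by
      rw [← h7]; simp
    rw [h8]
    exact w.add_mem (w.mul_mem_right _ hpw) (w.mul_mem_right _ h3)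
  exact hw.isPrime.ne_top ((Ideal.eq_top_iff_one _).mpr h5)

end Fermat.Agent.LT.T7.H416
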