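import Mathlib
import Fermat.Agent.LT.T7.H893.SupplySpec
import Fermat.Agent.LT.T7.H416.SetupNT

/-!
# Row LT, tower T7, leaf T7.L2.1.C0 `SetupC` (helper416): the orbit of a place

OFF-MAIN.  No `sorry`, nothing assumed.  The image of a finite place under an automorphism of
`K'` over `K`, the place of `K` below a place of `K'`, transitivity of the Galois group on the
places over a place of `K` (Mathlib), in the vocabulary of `T7/Spec.lean` (`PlaceOver`).
-/

set_option autoImplicit false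
set_option linter.style.haveILetI false

open IsDedekindDomain NumberField
open scoped Pointwise

noncomputable section

namespace Fermat.Agent.LT.T7.H416

open Fermat.Agent.LT.T7

variable {K K' : Type} [Field K] [NumberField K] [Field K'] [NumberField K'] [Algebra K K']

/-- The ring automorphism of `𝓞 K'` of an automorphism of `K'` over `K`. -/
abbrev oEquiv416 (τ : K' ≃ₐ[K] K') : 𝓞 K' ≃+* 𝓞 K' :=
  RingOfIntegers.mapRingEquiv τ.toRingEquiv

omit [NumberField K] [NumberField K'] in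
theorem oEquiv_apply416 (τ : K' ≃ₐ[K] K') (y : 𝓞 K') : ((oEquiv416 τ y : 𝓞 K') : K') = τ y :=
  rfl

omit [NumberField K] [NumberField K'] in
theorem oEquiv_algebraMap416 (τ : K' ≃ₐ[K] K') (x : 𝓞 K) :
    oEquiv416 τ (algebraMap (𝓞 K) (𝓞 K') x) = algebraMap (𝓞 K) (𝓞 K') x := by
  apply Subtype.ext
  show τ (algebraMap K K' (x : K)) = algebraMap K K' (x : K)
  exact τ.commutes _

omit [NumberField K] [NumberField K'] in
theorem oEquiv_mul416 (τ τ' : K' ≃ₐ[K] K') (y : 𝓞 K') :
    oEquiv416 (τ * τ') y = oEquiv416 τ (oEquiv416 τ' y) := rfl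

omit [NumberField K] [NumberField K'] in
theorem oEquiv_one416 (y : 𝓞 K') : oEquiv416 (1 : K' ≃ₐ[K] K') y = y := rfl

/-- The image of a finite place under an automorphism. -/
def mapPlace416 (τ : K' ≃ₐ[K] K') (w : HeightOneSpectrum (𝓞 K')) :
    HeightOneSpectrum (𝓞 K') where
  asIdeal := Ideal.map (oEquiv416 τ) w.asIdeal
  isPrime := Ideal.map_isPrime_of_equiv _
  ne_bot := by
    rw [Ne, Ideal.map_eq_bot_iff_of_injective (RingEquiv.injective _)]
    exact w.ne_bot

theorem mem_mapPlace416 (τ : K' ≃ₐ[K] K') (w : HeightOneSpectrum (𝓞 K')) (y : 𝓞 K') :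
    y ∈ (mapPlace416 τ w).asIdeal ↔ ∃ x ∈ w.asIdeal, oEquiv416 τ x = y :=
  Ideal.mem_map_of_equiv _ _

theorem mapPlace_one416 (w : HeightOneSpectrum (𝓞 K')) :
    mapPlace416 (1 : K' ≃ₐ[K] K') w = w := by
  apply HeightOneSpectrum.ext
  ext y
  rw [mem_mapPlace416]
  constructor
  · rintro ⟨x, hx, rfl⟩
    exact hx
  · intro hy
    exact ⟨y, hy, rfl⟩

theorem mapPlace_mul416 (τ τ' : K' ≃ₐ[K] K') (w : HeightOneSpectrum (𝓞 K')) :
    mapPlace416 (τ * τ') w = mapPlace416 τ (mapPlace416 τ' w) := by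
  apply HeightOneSpectrum.ext
  ext y
  rw [mem_mapPlace416, mem_mapPlace416]
  constructor
  · rintro ⟨x, hx, rfl⟩
    exact ⟨oEquiv416 τ' x, (mem_mapPlace416 _ _ _).mpr ⟨x, hx, rfl⟩, rfl⟩
  · rintro ⟨x, hx, rfl⟩
    obtain ⟨x', hx', rfl⟩ := (mem_mapPlace416 _ _ _).mp hx
    exact ⟨x', hx', rfl⟩

/-- The action of the Galois group on the finite places. -/
instance mulActionPlace416 : MulAction (K' ≃ₐ[K] K') (HeightOneSpectrum (𝓞 K')) where
  smul := mapPlace416
  one_smul := mapPlace_one416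
  mul_smul := mapPlace_mul416

theorem smul_def416 (τ : K' ≃ₐ[K] K') (w : HeightOneSpectrum (𝓞 K')) :
    τ • w = mapPlace416 τ w := rfl

/-- The images of a place over `v` are places over `v`. -/
theorem placeOver_mapPlace416 (τ : K' ≃ₐ[K] K') {v : HeightOneSpectrum (𝓞 K)}
    {w : HeightOneSpectrum (𝓞 K')} (h : PlaceOver K K' v w) :
    PlaceOver K K' v (mapPlace416 τ w) := by
  intro x y hxy
  have hy : y = algebraMap (𝓞 K) (𝓞 K') x := Subtype.ext hxy
  rw [h x y hxy, mem_mapPlace416]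
  constructor
  · intro hyw
    refine ⟨y, hyw, ?_⟩
    rw [hy]
    exact oEquiv_algebraMap416 τ x
  · rintro ⟨z, hz, hzy⟩
    have e1 : oEquiv416 τ y = y := by rw [hy]; exact oEquiv_algebraMap416 τ x
    have e2 : z = y := (oEquiv416 τ).injective (hzy.trans e1.symm)
    rw [← e2]
    exact hz

/-- The place of `K` below a place of `K'`. -/
def below416 (w : HeightOneSpectrum (𝓞 K')) : HeightOneSpectrum (𝓞 K) where
  asIdeal := Ideal.comap (algebraMap (𝓞 K) (𝓞 K')) w.asIdeal
  isPrime := Ideal.comap_isPrime _ _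
  ne_bot := by
    intro h
    -- the absolute norm of `w` is a non-zero integer of `w`
    have h1 : ((Ideal.absNorm w.asIdeal : ℕ) : 𝓞 K') ∈ w.asIdeal := Ideal.absNorm_mem _
    have h2 : ((Ideal.absNorm w.asIdeal : ℕ) : 𝓞 K) ∈
        Ideal.comap (algebraMap (𝓞 K) (𝓞 K')) w.asIdeal := by
      rw [Ideal.mem_comap, map_natCast]
      exact h1
    rw [h, Ideal.mem_bot] at h2
    have h3 : Ideal.absNorm w.asIdeal = 0 := by exact_mod_cast h2
    rw [Ideal.absNorm_eq_zero_iff] at h3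
    exact w.ne_bot h3

theorem placeOver_below416 (w : HeightOneSpectrum (𝓞 K')) : PlaceOver K K' (below416 w) w := by
  intro x y hxy
  have hy : y = algebraMap (𝓞 K) (𝓞 K') x := Subtype.ext hxy
  rw [hy]
  rfl

/-- A place over `v` lies over `v` in the sense of Mathlib. -/
theorem liesOver_of_placeOver416 {v : HeightOneSpectrum (𝓞 K)} {w : HeightOneSpectrum (𝓞 K')}
    (h : PlaceOver K K' v w) : w.asIdeal.LiesOver v.asIdeal := by
  refine ⟨?_⟩
  ext x
  rw [Ideal.under_def, Ideal.mem_comap]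
  exact h x (algebraMap (𝓞 K) (𝓞 K') x) rfl

theorem below_eq_of_placeOver416 {v : HeightOneSpectrum (𝓞 K)} {w : HeightOneSpectrum (𝓞 K')}
    (h : PlaceOver K K' v w) : below416 w = v := by
  apply HeightOneSpectrum.ext
  ext x
  exact (h x (algebraMap (𝓞 K) (𝓞 K') x) rfl).symm

/-- `w` divides the extension of `𝔫` iff the place below `w` divides `𝔫`. -/
theorem dvd_upI_iff416 (𝔫 : Ideal (𝓞 K)) (w : HeightOneSpectrum (𝓞 K')) :
    w.asIdeal ∣ H893.upI (K' := K') 𝔫 ↔ (below416 w).asIdeal ∣ 𝔫 := by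
  rw [Ideal.dvd_iff_le, Ideal.dvd_iff_le]
  exact Ideal.map_le_iff_le_comap

end Fermat.Agent.LT.T7.H416

end
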