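import Mathlib
import Fermat.Agent.LT.T7.H893.SupplySpec
import Fermat.Agent.LT.T7.H930.CompDataExists
import Fermat.Agent.LT.T7.H416.SetupOrbit

/-!
# Row LT, tower T7, leaf T7.L2.1.C0 `SetupC` (SPARE proof, helper416)

OFF-MAIN.  `setupC416 K K' : T7.H893.SetupC K K'`, VERBATIM against
`LT/T7/H893/SupplySpec.lean` (helper893@09abca2c2), UNCONDITIONAL.  No `sorry`, nothing assumed.

Construction.  `σ` = a generator of `Gal(K'/K)` (`exists_generator930`), `s = adelicAut930 σ`,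
frames of helper62 on the closed tower T1, `aut` for every level coming from `K`
(`autPreserves_all930`, `map_level_stable930`).  `𝔪 = (Φ.level ∩ 𝒪_K) · ∏ (the places of `K` under
the exceptional set of `ConstOnFibres`)`; `w₀` = a prime of `K'` over a prime number
`p ∤ N(𝔪)` with `σ w₀ ≠ w₀` (`exists_prime_moved416`, elementary: no Chebotarev); `u = w₀ ∩ 𝒪_K`,
`o j = σ^j w₀`, `𝔫₀ = u 𝔪`, `𝔑₀ = 𝔫₀ 𝒪_{K'}`, `S'` = the prime divisors of `𝔑₀`.  The orbit has `ℓ`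
distinct places because the stabiliser of `w₀` is a proper subgroup of a group of prime order;
it is the set of all places over `u` by the transitivity of the Galois action (Mathlib).
-/

set_option autoImplicit false
set_option linter.style.haveILetI false
set_option linter.unusedSectionVars false

open IsDedekindDomain NumberField MeasureTheory AutomorphicForm
open scoped Pointwise

noncomputable section

namespace Fermat.Agent.LT.T7.H416

open Fermat.Agent.LT.H556 Fermat.Agent.LT.H556.A0 Fermat.Agent.LT.T7 Fermat.Agent.LT.T7.H893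
open Fermat.Agent.LT.T7.H930 Fermat.Agent.LT.T1.H930

attribute [local instance] Fermat.Agent.LT.T5.instMeasurableSpaceG

variable {K K' : Type} [Field K] [NumberField K] [Field K'] [NumberField K'] [Algebra K K']

/-- The Galois group permutes the places over a place of `K` transitively. -/
theorem exists_mapPlace_eq416 [IsGalois K K'] {v : HeightOneSpectrum (𝓞 K)}
    {w w' : HeightOneSpectrum (𝓞 K')} (h : PlaceOver K K' v w) (h' : PlaceOver K K' v w') :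
    ∃ τ : K' ≃ₐ[K] K', mapPlace416 τ w = w' := by
  haveI := liesOver_of_placeOver416 h
  haveI := liesOver_of_placeOver416 h'
  haveI : IsGaloisGroup (K' ≃ₐ[K] K') (𝓞 K) (𝓞 K') :=
    IsGaloisGroup.of_isFractionRing (K' ≃ₐ[K] K') (𝓞 K) (𝓞 K') K K'
  obtain ⟨τ, hτ⟩ := Ideal.exists_smul_eq_of_isGaloisGroup v.asIdeal w.asIdeal w'.asIdeal
    (K' ≃ₐ[K] K')
  refine ⟨τ, ?_⟩
  apply HeightOneSpectrum.ext
  rw [← hτ]
  ext y
  rw [mem_mapPlace416, Ideal.mem_pointwise_smul_iff_inv_smul_mem]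
  constructor
  · rintro ⟨x, hx, rfl⟩
    have : τ⁻¹ • (oEquiv416 τ x) = x := by
      apply Subtype.ext
      show τ⁻¹ (τ (x : K')) = x
      exact τ.symm_apply_apply _
    rw [this]
    exact hx
  · intro hy
    refine ⟨τ⁻¹ • y, hy, ?_⟩
    apply Subtype.ext
    show τ (τ⁻¹ (y : K')) = y
    exact τ.apply_symm_apply _

/-- In a group of prime order `ℓ` every element is `σ ^ j`, `j < ℓ`, for every `σ ≠ 1`. -/
theorem exists_pow_eq416 {G : Type*} [Group G] {ℓ : ℕ} (hℓ : ℓ.Prime) (hcard : Nat.card G = ℓ)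
    {σ : G} (hσ : σ ≠ 1) (τ : G) : ∃ j < ℓ, τ = σ ^ j := by
  haveI : Fact ℓ.Prime := ⟨hℓ⟩
  obtain ⟨n, hn⟩ := mem_powers_of_prime_card hcard hσ (g' := τ)
  have h1 : σ ^ ℓ = 1 := by rw [← hcard]; exact pow_card_eq_one'
  refine ⟨n % ℓ, Nat.mod_lt _ hℓ.pos, ?_⟩
  have h2 : σ ^ n = σ ^ (n % ℓ) := by
    conv_lhs => rw [← Nat.div_add_mod n ℓ]
    rw [pow_add, pow_mul, h1, one_pow, one_mul]
  rw [← h2]
  exact hn.symm

/-- A place which is moved by `σ` is moved by `σ ^ j`, `0 < j < ℓ`. -/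
theorem mapPlace_pow_ne416 {ℓ : ℕ} (hℓ : ℓ.Prime) (hcard : Nat.card (K' ≃ₐ[K] K') = ℓ)
    {σ : K' ≃ₐ[K] K'} {w : HeightOneSpectrum (𝓞 K')} (hw : mapPlace416 σ w ≠ w)
    {j : ℕ} (hj0 : 0 < j) (hjl : j < ℓ) : mapPlace416 (σ ^ j) w ≠ w := by
  haveI : Fact ℓ.Prime := ⟨hℓ⟩
  intro h
  have hσ1 : σ ≠ 1 := by
    rintro rfl
    exact hw (mapPlace_one416 w)
  have h1 : σ ^ ℓ = 1 := by rw [← hcard]; exact pow_card_eq_one'
  have hord : orderOf σ = ℓ := orderOf_eq_prime h1 hσ1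
  have hj1 : σ ^ j ≠ 1 := by
    intro h2
    have := orderOf_dvd_of_pow_eq_one h2
    rw [hord] at this
    exact absurd (Nat.le_of_dvd hj0 this) (not_le.mpr hjl)
  have hmem : σ ^ j ∈ MulAction.stabilizer (K' ≃ₐ[K] K') w := h
  have hσ : σ ∈ Subgroup.zpowers (σ ^ j) := mem_zpowers_of_prime_card hcard hj1
  have hle : Subgroup.zpowers (σ ^ j) ≤ MulAction.stabilizer (K' ≃ₐ[K] K') w :=
    (Subgroup.zpowers_le).mpr hmem
  exact hw (hle hσ)

theorem one_mem_of_coprime416 {R : Type*} [CommRing R] (w : Ideal R) {p M : ℕ}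
    (hcop : Nat.Coprime p M) (hp : (p : R) ∈ w) (hM : (M : R) ∈ w) : (1 : R) ∈ w := by
  have h6 := Nat.Coprime.gcd_eq_one hcop
  have h7 : ((Nat.gcd p M : ℤ) : R) = (p : R) * ((Nat.gcdA p M : ℤ) : R)
      + (M : R) * ((Nat.gcdB p M : ℤ) : R) := by
    rw [Nat.gcd_eq_gcd_ab]
    push_cast
    ring
  rw [h6] at h7
  have h8 : (1 : R) = (p : R) * ((Nat.gcdA p M : ℤ) : R)
      + (M : R) * ((Nat.gcdB p M : ℤ) : R) := by
    rw [← h7]; simp
  rw [h8]
  exact w.add_mem (w.mul_mem_right _ hp) (w.mul_mem_right _ hM)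

/-- The contraction of a non-zero ideal of `𝓞 K'` to `𝓞 K` is not zero. -/
theorem comap_ne_bot416 {I : Ideal (𝓞 K')} (hI : I ≠ ⊥) :
    Ideal.comap (algebraMap (𝓞 K) (𝓞 K')) I ≠ ⊥ := by
  intro h
  have h1 : ((Ideal.absNorm I : ℕ) : 𝓞 K') ∈ I := Ideal.absNorm_mem _
  have h2 : ((Ideal.absNorm I : ℕ) : 𝓞 K) ∈ Ideal.comap (algebraMap (𝓞 K) (𝓞 K')) I := by
    rw [Ideal.mem_comap, map_natCast]
    exact h1
  rw [h, Ideal.mem_bot] at h2
  have h3 : Ideal.absNorm I = 0 := by exact_mod_cast h2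
  rw [Ideal.absNorm_eq_zero_iff] at h3
  exact hI h3

/-- Some element of `𝓞 K'` is moved by an automorphism `σ ≠ 1`. -/
theorem exists_moved416 {σ : K' ≃ₐ[K] K'} (hσ : ∃ x : K', σ x ≠ x) :
    ∃ θ : 𝓞 K', oEquiv416 σ θ ≠ θ := by
  by_contra hcon
  push Not at hcon
  obtain ⟨x, hx⟩ := hσ
  apply hx
  obtain ⟨a, b, -, rfl⟩ := IsFractionRing.div_surjective (A := 𝓞 K') x
  have ha : σ (a : K') = a := congrArg (fun y : 𝓞 K' => (y : K')) (hcon a)
  have hb : σ (b : K') = b := congrArg (fun y : 𝓞 K' => (y : K')) (hcon b)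
  show σ ((a : K') / (b : K')) = (a : K') / (b : K')
  rw [map_div₀, ha, hb]

section Main

variable (K K' : Type) [Field K] [NumberField K] [Field K'] [NumberField K'] [Algebra K K']

/-- **LEAF T7.L2.1.C0 `SetupC`**: the common part of the data of level 2 exists. -/
theorem setupC416 : SetupC K K' := by
  classical
  intro ℓ h _ _ Φ _ hconst
  haveI := h.galois
  have hℓ := h.prime
  have hcard : Nat.card (K' ≃ₐ[K] K') = ℓ := by
    rw [IsGalois.card_aut_eq_finrank, h.degree]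
  obtain ⟨σ, hpow, hfix, hfaith⟩ := exists_generator930 K K' ℓ hℓ h.degree
  obtain ⟨μ, F, r, hF, hr, -⟩ :=
    Fermat.Agent.LT.T5.H62.frame_exists_of_T1Out62 K ⊤ (Fermat.Agent.LT.T1.t1Out K)
  obtain ⟨μ', F', r', hF', hr', -⟩ :=
    Fermat.Agent.LT.T5.H62.frame_exists_of_T1Out62 K' ⊤ (Fermat.Agent.LT.T1.t1Out K')
  have hLC : LocallyCompactSpace (G K') := (Fermat.Agent.LT.T1.t1Out K').locComp.2.1
  have hSC : SecondCountableTopology (G K') := (Fermat.Agent.LT.T1.t1Out K').locComp.2.2.2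
  obtain ⟨Sexc, hSexc⟩ := hconst
  -- the auxiliary level
  set 𝔪 : Ideal (𝓞 K) := Ideal.comap (algebraMap (𝓞 K) (𝓞 K')) Φ.level *
    ∏ w ∈ Sexc, (below416 (K := K) w).asIdeal with h𝔪
  have h𝔪ne : 𝔪 ≠ ⊥ := by
    rw [h𝔪, ← Ideal.zero_eq_bot]
    refine mul_ne_zero (comap_ne_bot416 Φ.level_ne_bot) ?_
    rw [Finset.prod_ne_zero_iff]
    intro w _
    exact (below416 (K := K) w).ne_bot
  have hlev𝔪 : Ideal.comap (algebraMap (𝓞 K) (𝓞 K')) Φ.level ∣ 𝔪 := Dvd.intro _ rfl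
  have hexc𝔪 : ∀ w ∈ Sexc, (below416 (K := K) w).asIdeal ∣ 𝔪 := fun w hw =>
    Dvd.dvd.mul_left (Finset.dvd_prod_of_mem _ hw) _
  set M : ℕ := Ideal.absNorm 𝔪 with hM
  have hMne : M ≠ 0 := by rw [hM, Ne, Ideal.absNorm_eq_zero_iff]; exact h𝔪ne
  -- the place `w₀`
  have hσx : ∃ x : K', σ x ≠ x := by
    obtain ⟨x, hx⟩ := hfaith 1 one_pos hℓ.one_lt
    exact ⟨x, by simpa using hx⟩
  obtain ⟨θ, hθ⟩ := exists_moved416 hσx
  obtain ⟨p, w, hp, hpM, hwprime, hpw, hmoved⟩ :=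
    exists_prime_moved416 K' (oEquiv416 σ) θ hθ M hMne
  have hwne : w ≠ ⊥ := by
    rintro rfl
    rw [Ideal.mem_bot] at hpw
    have : p = 0 := by exact_mod_cast hpw
    exact hp.ne_zero this
  set w₀ : HeightOneSpectrum (𝓞 K') := ⟨w, hwprime, hwne⟩ with hw₀
  have hmoved' : mapPlace416 σ w₀ ≠ w₀ := by
    intro h1
    apply hmoved
    have := congrArg HeightOneSpectrum.asIdeal h1
    exact this
  set u : HeightOneSpectrum (𝓞 K) := below416 w₀ with hu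
  have hpu : (p : 𝓞 K) ∈ u.asIdeal := by
    show (p : 𝓞 K) ∈ Ideal.comap (algebraMap (𝓞 K) (𝓞 K')) w
    rw [Ideal.mem_comap, map_natCast]
    exact hpw
  have hu𝔪 : ¬ u.asIdeal ∣ 𝔪 := by
    intro hdvd
    have h1 : (M : 𝓞 K) ∈ u.asIdeal := (Ideal.dvd_iff_le.mp hdvd) (Ideal.absNorm_mem 𝔪)
    have h2 := one_mem_of_coprime416 u.asIdeal
      ((Nat.Prime.coprime_iff_not_dvd hp).mpr hpM) hpu h1
    exact u.isPrime.ne_top ((Ideal.eq_top_iff_one _).mpr h2)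
  -- the levels
  set 𝔫₀ : Ideal (𝓞 K) := u.asIdeal * 𝔪 with h𝔫₀
  have h𝔫₀ne : 𝔫₀ ≠ ⊥ := by
    rw [h𝔫₀, ← Ideal.zero_eq_bot]
    exact mul_ne_zero u.ne_bot h𝔪ne
  have hu𝔫₀ : u.asIdeal ∣ 𝔫₀ := Dvd.intro _ rfl
  have h𝔪𝔫₀ : 𝔪 ∣ 𝔫₀ := Dvd.intro_left _ rfl
  have hu2 : ¬ u.asIdeal ^ 2 ∣ 𝔫₀ := by
    intro h1
    rw [h𝔫₀, pow_two] at h1
    exact hu𝔪 ((mul_dvd_mul_iff_left u.ne_bot).mp h1)
  set 𝔑₀ : Ideal (𝓞 K') := upI (K' := K') 𝔫₀ with h𝔑₀
  have h𝔑₀ne : 𝔑₀ ≠ ⊥ := by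
    rw [h𝔑₀, upI, Ne, Ideal.map_eq_bot_iff_of_injective
      (FaithfulSMul.algebraMap_injective (𝓞 K) (𝓞 K'))]
    exact h𝔫₀ne
  have hfin : {v : HeightOneSpectrum (𝓞 K') | v.asIdeal ∣ 𝔑₀}.Finite :=
    Ideal.finite_factors h𝔑₀ne
  have hmemS : ∀ w' : HeightOneSpectrum (𝓞 K'), w' ∈ hfin.toFinset ↔ w'.asIdeal ∣ 𝔑₀ := by
    intro w'
    rw [Set.Finite.mem_toFinset]
    rfl
  have hmemS' : ∀ w' : HeightOneSpectrum (𝓞 K'),
      w' ∈ hfin.toFinset ↔ (below416 (K := K) w').asIdeal ∣ 𝔫₀ := by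
    intro w'
    rw [hmemS, h𝔑₀, dvd_upI_iff416]
  -- the orbit
  have horb_over : ∀ j : ℕ, PlaceOver K K' u (mapPlace416 (σ ^ j) w₀) := fun j =>
    placeOver_mapPlace416 _ (placeOver_below416 w₀)
  have horb_below : ∀ j : ℕ, below416 (K := K) (mapPlace416 (σ ^ j) w₀) = u := fun j =>
    below_eq_of_placeOver416 (horb_over j)
  refine ⟨⟨ℓ, adelicAut930 σ.toRingEquiv, (algebraMap K K').fieldRange, ⟨μ, F, r⟩,
    ⟨μ', F', r'⟩, 𝔑₀, hfin.toFinset, u, fun j => mapPlace416 (σ ^ j) w₀⟩, ?_⟩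
  refine
    { deg := rfl
      cyc := ⟨hℓ.pos, ?_, ?_, ?_⟩
      base := ?_
      frame := ⟨hF, hr⟩
      frame' := ⟨hF', hr'⟩
      aut := ?_
      level_le := ?_
      mem_S' := hmemS
      const := ?_
      orbit_rel := ?_
      orbit_ne := ?_
      orbit_over := horb_over
      orbit_level := ?_
      orbit_good := ?_
      base_level := ⟨𝔫₀, h𝔫₀ne, rfl, hu𝔫₀, hu2⟩
      orbit_all := ?_
      fibre := ?_ }
  · intro x
    show ((σ.toRingEquiv : RingAut K') ^ ℓ) x = x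
    rw [toRingEquiv_pow930]
    exact hpow x
  · intro x
    show x ∈ (algebraMap K K').fieldRange ↔ σ x = x
    rw [RingHom.mem_fieldRange]
    exact hfix x
  · intro j hj0 hjl
    obtain ⟨x, hx⟩ := hfaith j hj0 hjl
    refine ⟨x, ?_⟩
    show ((σ.toRingEquiv : RingAut K') ^ j) x ≠ x
    rw [toRingEquiv_pow930]
    exact hx
  · intro x
    show x ∈ (algebraMap K K').fieldRange ↔ _
    exact RingHom.mem_fieldRange
  · intro 𝔫
    exact autPreserves_all930 hLC hSC (adelicAut930 σ.toRingEquiv) (upI (K' := K') 𝔫)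
      (map_level_stable930 σ 𝔫) μ' hF'.haar r' hr'
  · -- level_le
    show upI (K' := K') 𝔫₀ ≤ Φ.level
    rw [upI, Ideal.map_le_iff_le_comap]
    exact (Ideal.dvd_iff_le.mp h𝔪𝔫₀).trans (Ideal.dvd_iff_le.mp hlev𝔪)
  · -- const
    intro w₁ hw₁ w₂ hw₂ v h1 h2
    have key : ∀ w' : HeightOneSpectrum (𝓞 K'), w' ∉ hfin.toFinset → w' ∉ Sexc := by
      intro w' hw' hmem
      apply hw'
      rw [hmemS']
      exact (hexc𝔪 w' hmem).trans h𝔪𝔫₀
    exact hSexc w₁ (key w₁ hw₁) w₂ (key w₂ hw₂) v h1 h2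
  · -- orbit_rel
    intro j
    show (mapPlace416 (σ ^ (j + 1)) w₀).asIdeal
      = Ideal.map (RingOfIntegers.mapRingEquiv σ.toRingEquiv) (mapPlace416 (σ ^ j) w₀).asIdeal
    rw [pow_succ', mapPlace_mul416]
    rfl
  · -- orbit_ne
    intro j hj0 hjl
    show mapPlace416 (σ ^ j) w₀ ≠ mapPlace416 (σ ^ 0) w₀
    rw [pow_zero, mapPlace_one416]
    exact mapPlace_pow_ne416 hℓ hcard hmoved' hj0 hjl
  · -- orbit_level
    intro j
    show mapPlace416 (σ ^ j) w₀ ∈ hfin.toFinset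
    rw [hmemS', horb_below j]
    exact hu𝔫₀
  · -- orbit_good
    intro j hdvd
    apply hu𝔪
    have h1 : Ideal.comap (algebraMap (𝓞 K) (𝓞 K')) Φ.level
        ≤ (below416 (K := K) (mapPlace416 (σ ^ j) w₀)).asIdeal :=
      Ideal.comap_mono (Ideal.dvd_iff_le.mp hdvd)
    rw [horb_below j] at h1
    exact (Ideal.dvd_iff_le.mpr h1).trans hlev𝔪
  · -- orbit_all
    intro w' hw'
    obtain ⟨τ, hτ⟩ := exists_mapPlace_eq416 (placeOver_below416 (K := K) w₀) hw'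
    have hσ1 : σ ≠ 1 := by
      rintro rfl
      exact hmoved' (mapPlace_one416 w₀)
    obtain ⟨j, hj, rfl⟩ := exists_pow_eq416 hℓ hcard hσ1 τ
    exact ⟨j, hj, hτ.symm⟩
  · -- fibre
    intro v w₁ w₂ h1 h2 hmem
    rw [hmemS'] at hmem ⊢
    rw [below_eq_of_placeOver416 h2]
    rwa [below_eq_of_placeOver416 h1] at hmem

end Main

end Fermat.Agent.LT.T7.H416

end
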